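import Fermat.Agent.S56.Flat.Cnt.Irr

/-! # S56 / FLAT / CNT: leaf IRR is PROVED in `Cnt/Irr.lean` (helper10); this file is the shim. -/
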