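import Fermat.Agent.S56.Flat.Cnt.Z1Char

/-! # S56 / FLAT / CNT: leaf C1 is PROVED in `Cnt/Z1Char.lean`; this file is the shim. -/
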