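import Fermat.Agent.S56.Flat.Cnt.Red

/-! # S56 / FLAT / CNT: leaf R(b) is PROVED in `Cnt/Red.lean` (helper4); this file is the shim. -/
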